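import Fermat.Agent.S59.NMP.H161.BettiCore
import Fermat.Agent.S59.NMP.H135.LgcSpec

/-!
# Row S59, cell NMP, leaf LGC / BETTI (helper161): `H135.LgcBettiStatement`, unconditionally

`lgcBetti : H135.LgcBettiStatement` — the scalar `(α² + p)/α` of `T_p` on the eigen-homs
`Frac 𝒪 →+ J₀(N)` is the scalar of `T_p` on the Betti eigenclasses (`betti_core`), and the
resulting reduction `lgc_of_eig : H135.LgcEigStatement → NMP.LgcStatement`.
-/

set_option autoImplicit false

namespace Fermat.Agent.S59.NMP.H161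

open Fermat.Agent.S59.NMP.H135

/-- **BETTI** (leaf of NMP-LGC), unconditionally. -/
theorem lgcBetti : LgcBettiStatement := by
  intro p _ 𝒪 _ _ _ _ _ _ hp𝒪 N _ hpN Sig a α hS x hx
  exact betti_core hp𝒪 hpN Sig a α (fun f hf => hS f hf) x hx

/-- **LGC from EIG alone.** -/
theorem lgc_of_eig (hE : LgcEigStatement) : Fermat.Agent.S59.NMP.LgcStatement :=
  lgc_of_eig_betti hE lgcBetti

end Fermat.Agent.S59.NMP.H161
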