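import Fermat.Agent.S59.NMP.H161.KumAll
import Fermat.Agent.Ribet.H883.Bridge
import Fermat.Agent.S59.NM.Spec

/-!
# Row S59, cell NMP, leaf LGC / BETTI (helper161): from the eigen-homs to the Betti eigenclasses

`betti_core`: let `x : Γ₀(N) → 𝒪` be a Betti eigenclass (cuspidal, `T_ℓ x = a_ℓ x` for `ℓ ∤ N`,
`ℓ ∉ Sig`).  If `T_p (f (α z)) = f ((α² + p) z)` for every eigen-hom `f : Frac 𝒪 →+ J₀(N)`
(`f` kills `𝒪`, `T_ℓ (f z) = f (a_ℓ z)`), then `α • T_p x = (α² + p) • x`.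

Proof: `f_ϑ (z) = κ (γ ↦ ϑ (x γ · z))` is an eigen-hom, where `ϑ` is a character of `Frac 𝒪 / 𝒪`
with `ϑ (1/ϖ) ≠ 0` and `κ` is the `p`-primary Kummer map (`KumAll.lean`: additive, injective,
Hecke-equivariant at ALL primes `ℓ ∤ N`, including `ℓ = p`).  The hypothesis and the injectivity of
`κ` give `ϑ (w γ · z) = 0` for all `z`, `w = α T_p x − (α² + p) x`; `z = (w γ)⁻¹ ϖ⁻¹` shows `w = 0`.

The statement is the unfolded form of `H135.LgcBettiStatement` (`S59/NMP/H135/LgcSpec.lean`).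
-/

set_option autoImplicit false

open IsLocalRing CongruenceSubgroup
open scoped MatrixGroups

noncomputable section

namespace Fermat.Agent.S59.NMP.H161

open Fermat.Agent.S29 Fermat.Agent.S29.M4b ModularCurve Fermat.Agent.S30.H450
  Fermat.Agent.S30.H330 Fermat.Agent.Ribet.H883 Fermat.Agent.S41.Spec Fermat.Agent.S29.H642

/-- A cuspidal class is a parabolic character (bridge of the two languages). -/
theorem isParHom_funOf_of_cuspidal {N : ℕ} {A : Type*} [AddCommGroup A]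
    {φ : Additive (Gamma0 N) →+ A} (h : IsCuspidal φ) : IsParHom (funOf φ) := by
  refine ⟨funOf_map_mul φ, fun γ hγ => h.1 γ ?_, fun γ n hn hγn =>
    h.2 γ (isOfFinOrder_iff_pow_eq_one.mpr ⟨n, hn, hγn⟩)⟩
  have e : ((γ : SL(2, ℤ)) : Matrix (Fin 2) (Fin 2) ℤ).trace = (G0.mat γ).trace := rfl
  rw [e]
  rcases hγ with h1 | h1 <;> rw [h1] <;> norm_num

section Twist

variable {𝒪 : Type} [CommRing 𝒪] [IsDomain 𝒪]

/-- The additive map `r ↦ ϑ (r z)`. -/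
def twist161 (ϑ : FractionRing 𝒪 →+ QZ) (z : FractionRing 𝒪) : 𝒪 →+ QZ :=
  ϑ.comp ((AddMonoidHom.mulRight z).comp (algebraMap 𝒪 (FractionRing 𝒪)).toAddMonoidHom)

theorem twist161_apply (ϑ : FractionRing 𝒪 →+ QZ) (z : FractionRing 𝒪) (r : 𝒪) :
    twist161 ϑ z r = ϑ (algebraMap 𝒪 (FractionRing 𝒪) r * z) := rfl

theorem twist161_add (ϑ : FractionRing 𝒪 →+ QZ) (z z' : FractionRing 𝒪) (r : 𝒪) :
    twist161 ϑ (z + z') r = twist161 ϑ z r + twist161 ϑ z' r := by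
  rw [twist161_apply, twist161_apply, twist161_apply, mul_add, map_add]

theorem twist161_int (ϑ : FractionRing 𝒪 →+ QZ)
    (hϑ0 : ∀ r : 𝒪, ϑ (algebraMap 𝒪 (FractionRing 𝒪) r) = 0) (s r : 𝒪) :
    twist161 ϑ (algebraMap 𝒪 (FractionRing 𝒪) s) r = 0 := by
  rw [twist161_apply, ← map_mul]
  exact hϑ0 _

theorem twist161_mul (ϑ : FractionRing 𝒪 →+ QZ) (z : FractionRing 𝒪) (s r : 𝒪) :
    twist161 ϑ (algebraMap 𝒪 (FractionRing 𝒪) s * z) r = twist161 ϑ z (s * r) := by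
  rw [twist161_apply, twist161_apply, (algebraMap 𝒪 (FractionRing 𝒪)).map_mul]
  congr 1
  ring

variable [IsDiscreteValuationRing 𝒪]

/-- The twisted characters have `p`-power order. -/
theorem twist161_pow {p : ℕ} (hp𝒪 : (p : 𝒪) ∈ maximalIdeal 𝒪) (ϑ : FractionRing 𝒪 →+ QZ)
    (hϑ0 : ∀ r : 𝒪, ϑ (algebraMap 𝒪 (FractionRing 𝒪) r) = 0) (z : FractionRing 𝒪) :
    ∃ n : ℕ, ∀ r : 𝒪, p ^ n • twist161 ϑ z r = 0 := by
  obtain ⟨ϖ, hϖ⟩ := IsDiscreteValuationRing.exists_irreducible 𝒪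
  have hϖ0 : algebraMap 𝒪 (FractionRing 𝒪) ϖ ≠ 0 := algebraMap_irreducible_ne_zero hϖ
  obtain ⟨n, y, rfl⟩ := exists_eq_div_pow hϖ z
  obtain ⟨b, hb⟩ : ∃ b : 𝒪, b * ϖ = (p : 𝒪) := by
    have h := hp𝒪
    rw [hϖ.maximalIdeal_eq, Ideal.mem_span_singleton'] at h
    exact h
  refine ⟨n, fun r => ?_⟩
  rw [twist161_apply, ← map_nsmul]
  have : p ^ n • (algebraMap 𝒪 (FractionRing 𝒪) r *
      (algebraMap 𝒪 (FractionRing 𝒪) y / algebraMap 𝒪 (FractionRing 𝒪) ϖ ^ n)) =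
      algebraMap 𝒪 (FractionRing 𝒪) (r * (b ^ n * y)) := by
    rw [nsmul_eq_mul]
    have hp : ((p ^ n : ℕ) : FractionRing 𝒪) = algebraMap 𝒪 (FractionRing 𝒪) ((b * ϖ) ^ n) := by
      rw [hb]; simp
    rw [hp, mul_pow]
    simp only [map_mul, map_pow]
    field_simp
  rw [this]
  exact hϑ0 _

end Twist

/-- **BETTI, unfolded form.**  If `T_p` acts by `(α² + p)/α` on all eigen-homs
`Frac 𝒪 →+ J₀(N)` of the system `a`, then `α • T_p x = (α² + p) • x` for every Betti eigenclass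
`x` of the system `a`. -/
theorem betti_core {p : ℕ} [Fact p.Prime] {𝒪 : Type} [CommRing 𝒪] [IsDomain 𝒪]
    [IsDiscreteValuationRing 𝒪] (hp𝒪 : (p : 𝒪) ∈ maximalIdeal 𝒪)
    {N : ℕ} [NeZero N] (hpN : ¬ p ∣ N) (Sig : Finset ℕ) (a : ℕ → 𝒪) (α : 𝒪)
    (hS : ∀ f : FractionRing 𝒪 →+ JZero N,
      ((∀ r : 𝒪, f (algebraMap 𝒪 (FractionRing 𝒪) r) = 0) ∧
        ∀ ℓ : Nat.Primes, ¬ (ℓ : ℕ) ∣ N → (ℓ : ℕ) ∉ Sig → ∀ z : FractionRing 𝒪,
          heckeOperatorBar N ℓ (f z) = f (algebraMap 𝒪 (FractionRing 𝒪) (a ℓ) * z)) →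
      ∀ z : FractionRing 𝒪,
        heckeOperatorBar N ⟨p, Fact.out⟩ (f (algebraMap 𝒪 (FractionRing 𝒪) α * z)) =
          f (algebraMap 𝒪 (FractionRing 𝒪) (α ^ 2 + (p : 𝒪)) * z))
    (x : Additive (Gamma0 N) →+ 𝒪) (hx : NM.IsEigenclass N Sig a x) :
    α • heckeTransfer hpN x = (α ^ 2 + (p : 𝒪)) • x := by
  classical
  haveI : NeZero p := ⟨(Fact.out : p.Prime).ne_zero⟩
  obtain ⟨hxc, hxe⟩ := hx
  have hc : IsParHom (funOf x) := isParHom_funOf_of_cuspidal hxc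
  obtain ⟨ϖ, hϖ⟩ := IsDiscreteValuationRing.exists_irreducible 𝒪
  obtain ⟨ϑ, hϑ0, hϑ1⟩ := exists_character hϖ
  have hϖ0 : algebraMap 𝒪 (FractionRing 𝒪) ϖ ≠ 0 := algebraMap_irreducible_ne_zero hϖ
  -- the characters `c_z = (γ ↦ ϑ (x γ · z))`
  set cx : FractionRing 𝒪 → (G0 N → QZ) := fun z γ => twist161 ϑ z (funOf x γ) with hcx
  have hpar : ∀ z, IsParHom (cx z) := fun z => isParHom_comp hc (twist161 ϑ z)
  have hpow : ∀ z, ∃ n : ℕ, p ^ n • cx z = 0 := by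
    intro z
    obtain ⟨n, hn⟩ := twist161_pow hp𝒪 ϑ hϑ0 z
    exact ⟨n, funext fun γ => hn _⟩
  have hcx_add : ∀ z z', cx (z + z') = cx z + cx z' := fun z z' =>
    funext fun γ => twist161_add ϑ z z' _
  have hcx_int : ∀ r : 𝒪, cx (algebraMap 𝒪 (FractionRing 𝒪) r) = 0 := fun r =>
    funext fun γ => twist161_int ϑ hϑ0 r _
  -- Hecke operators on the `c_z`
  have hcx_hecke : ∀ (ℓ : ℕ) (z : FractionRing 𝒪),
      heckeCoh N ℓ (cx z) = fun γ => twist161 ϑ z (heckeCoh N ℓ (funOf x) γ) := fun ℓ z =>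
    heckeCoh_comp (N := N) ℓ (funOf x) (twist161 ϑ z)
  -- the eigen-hom
  let f : FractionRing 𝒪 →+ JZero N := AddMonoidHom.mk' (fun z => kumQZ N p (cx z))
    (fun z z' => by
      show kumQZ N p (cx (z + z')) = kumQZ N p (cx z) + kumQZ N p (cx z')
      rw [hcx_add, kumQZ_add' (hpar z) (hpar z') (hpow z) (hpow z')])
  have hf : ∀ z, f z = kumQZ N p (cx z) := fun _ => rfl
  have hfeig : (∀ r : 𝒪, f (algebraMap 𝒪 (FractionRing 𝒪) r) = 0) ∧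
      ∀ ℓ : Nat.Primes, ¬ (ℓ : ℕ) ∣ N → (ℓ : ℕ) ∉ Sig → ∀ z : FractionRing 𝒪,
        heckeOperatorBar N ℓ (f z) = f (algebraMap 𝒪 (FractionRing 𝒪) (a ℓ) * z) := by
    refine ⟨fun r => ?_, fun ℓ hℓN hℓS z => ?_⟩
    · rw [hf, hcx_int, kumQZ_zero']
    · haveI : Fact (ℓ : ℕ).Prime := ⟨ℓ.2⟩
      rw [hf, hf, ← kumQZ_hecke_any ℓ hℓN (hpar z) (hpow z), hcx_hecke]
      congr 1
      funext γ
      have h1 := congrFun (funOf_heckeTransfer hℓN x) γ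
      rw [← h1, hxe (ℓ : ℕ) hℓN hℓS]
      show twist161 ϑ z ((a ℓ • x) (Additive.ofMul γ)) = twist161 ϑ _ (funOf x γ)
      rw [twist161_mul]
      rfl
  have key := hS f hfeig
  -- the consequence on characters
  have hchar : ∀ (z : FractionRing 𝒪) (γ : G0 N),
      twist161 ϑ (algebraMap 𝒪 (FractionRing 𝒪) α * z) (heckeCoh N p (funOf x) γ) =
        twist161 ϑ (algebraMap 𝒪 (FractionRing 𝒪) (α ^ 2 + (p : 𝒪)) * z) (funOf x γ) := by
    intro z γ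
    have h1 := key z
    rw [hf, hf, ← kumQZ_hecke_any ⟨p, Fact.out⟩ hpN (hpar _) (hpow _)] at h1
    have hparT : IsParHom (heckeCoh N ((⟨p, Fact.out⟩ : Nat.Primes) : ℕ)
        (cx (algebraMap 𝒪 (FractionRing 𝒪) α * z))) :=
      Fermat.Agent.S29.H149.isParHom_heckeCoh (Fact.out : p.Prime) hpN (hpar _)
    have hpowT : ∃ n : ℕ, p ^ n • heckeCoh N ((⟨p, Fact.out⟩ : Nat.Primes) : ℕ)
        (cx (algebraMap 𝒪 (FractionRing 𝒪) α * z)) = 0 := by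
      obtain ⟨n, hn⟩ := twist161_pow hp𝒪 ϑ hϑ0 (algebraMap 𝒪 (FractionRing 𝒪) α * z)
      refine ⟨n, ?_⟩
      rw [hcx_hecke]
      exact funext fun γ => hn _
    have h2 := eq_of_kumQZ_eq hparT (hpar _) hpowT (hpow _) h1
    rw [hcx_hecke] at h2
    exact congrFun h2 γ
  -- conclusion
  refine AddMonoidHom.ext fun g => ?_
  obtain ⟨γ, rfl⟩ : ∃ γ : Gamma0 N, Additive.ofMul γ = g := ⟨Additive.toMul g, rfl⟩
  have hT : (heckeTransfer hpN x) (Additive.ofMul γ) = heckeCoh N p (funOf x) γ :=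
    congrFun (funOf_heckeTransfer hpN x) γ
  show α • (heckeTransfer hpN x) (Additive.ofMul γ) = (α ^ 2 + (p : 𝒪)) • x (Additive.ofMul γ)
  rw [hT, smul_eq_mul, smul_eq_mul]
  set w : 𝒪 := α * heckeCoh N p (funOf x) γ - (α ^ 2 + (p : 𝒪)) * x (Additive.ofMul γ) with hw
  by_contra hne
  have hw0 : w ≠ 0 := fun h => hne (sub_eq_zero.mp h)
  have hwL : algebraMap 𝒪 (FractionRing 𝒪) w ≠ 0 := by
    simpa using hw0
  set z₀ : FractionRing 𝒪 :=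
    (algebraMap 𝒪 (FractionRing 𝒪) w)⁻¹ * (algebraMap 𝒪 (FractionRing 𝒪) ϖ)⁻¹ with hz₀
  have h3 := hchar z₀ γ
  rw [twist161_mul, twist161_mul] at h3
  have h4 : twist161 ϑ z₀ w = 0 := by
    rw [hw, map_sub, h3]
    exact sub_self _
  apply hϑ1
  rw [← h4, twist161_apply, hz₀, mul_inv_cancel_left₀ hwL]

end Fermat.Agent.S59.NMP.H161
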