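import Fermat.Agent.S30.H330.KumQZ
import Fermat.Agent.S30.Chain.Package
import Fermat.Agent.S15.H337.HeckeAll

/-!
# Row S59, cell NMP, leaf LGC / BETTI (helper161): the `p`-primary Kummer map, Hecke at ALL `ℓ ∤ N`

`κ = S30.H330.kumQZ N p` is the Kummer map on the `ℚ/ℤ`-valued parabolic characters of `Γ₀(N)` of
`p`-power order.  With the unconditional Kummer packages `S30.Chain.kumPackage` and the Hecke
compatibility of the dictionary at every prime `ℓ ∤ N` (`S15.H337.isKum_hecke_all`, including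
`ℓ = p`), `κ` is additive, injective, and `κ (T_ℓ c) = T_ℓ (κ c)` for EVERY prime `ℓ ∤ N`.
-/

set_option autoImplicit false

noncomputable section

namespace Fermat.Agent.S59.NMP.H161

open Fermat.Agent.S29 Fermat.Agent.S29.M4b ModularCurve Fermat.Agent.S30.H450
  Fermat.Agent.S30.H330

variable {N : ℕ} [NeZero N]

/-- The Kummer relation for `ℚ/ℤ`-valued characters is Hecke-compatible at every `ℓ ∤ N`. -/
theorem isKumQZ_hecke_any {m : ℕ} [NeZero m] (ℓ : Nat.Primes) (hℓ : ¬ (ℓ : ℕ) ∣ N)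
    {c : G0 N → QZ} {x : JZero N} (h : IsKumQZ N m c x) :
    IsKumQZ N m (heckeCoh N ℓ c) (heckeOperatorBar N ℓ x) := by
  obtain ⟨cm, hcm, hk⟩ := h
  refine ⟨heckeCoh N ℓ cm, fun γ => ?_, Fermat.Agent.S15.H337.isKum_hecke_all N m ℓ hℓ hk⟩
  have h1 := congrFun (heckeCoh_comp (N := N) (ℓ : ℕ) cm (zmodToQZ m)) γ
  rw [← h1]
  congr 1
  funext γ'
  exact hcm γ'

variable {p : ℕ} [NeZero p]

/-- The packages at all `p`-power moduli. -/
theorem kumPackages (N : ℕ) [NeZero N] (p : ℕ) [NeZero p] : ∀ n, KumPackage N (p ^ n) :=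
  fun n => Fermat.Agent.S30.Chain.kumPackage N (p ^ n)

theorem kumQZ_zero' : kumQZ N p (0 : G0 N → QZ) = 0 := by
  have H := kumPackages N p
  have h0 : IsParHom (0 : G0 N → QZ) :=
    ⟨fun _ _ => by simp, fun _ _ => rfl, fun _ _ _ _ => rfl⟩
  have h1 := isKumQZ_kumQZ H h0 (n := 0) (by simp)
  have h2 := IsKumQZ.add (H 0) h1 h1
  rw [add_zero] at h2
  have h3 := IsKumQZ.unique (H 0) h1 h2
  exact left_eq_add.mp h3

theorem kumQZ_add' {c c' : G0 N → QZ} (hc : IsParHom c) (hc' : IsParHom c')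
    (hn : ∃ n : ℕ, p ^ n • c = 0) (hn' : ∃ n : ℕ, p ^ n • c' = 0) :
    kumQZ N p (c + c') = kumQZ N p c + kumQZ N p c' := by
  have H := kumPackages N p
  obtain ⟨n, hn⟩ := hn
  obtain ⟨n', hn'⟩ := hn'
  have h1 := isKumQZ_kumQZ H hc (nsmul_eq_zero_of_le (le_max_left n n') hn)
  have h2 := isKumQZ_kumQZ H hc' (nsmul_eq_zero_of_le (le_max_right n n') hn')
  exact kumQZ_eq H (IsKumQZ.add (H _) h1 h2)

theorem kumQZ_hecke_any (ℓ : Nat.Primes) (hℓ : ¬ (ℓ : ℕ) ∣ N) {c : G0 N → QZ}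
    (hc : IsParHom c) (hn : ∃ n : ℕ, p ^ n • c = 0) :
    kumQZ N p (heckeCoh N ℓ c) = heckeOperatorBar N ℓ (kumQZ N p c) := by
  have H := kumPackages N p
  obtain ⟨n, hn⟩ := hn
  have h1 := isKumQZ_kumQZ H hc hn
  exact kumQZ_eq H (isKumQZ_hecke_any ℓ hℓ h1)

/-- At a fixed modulus, the character of a point is unique. -/
theorem isKum_char_eq {m : ℕ} [NeZero m] (H : KumPackage N m) {cm cm' : G0 N → ZMod m}
    {x : JZero N} (hk : IsKum N m cm x) (hk' : IsKum N m cm' x) : cm = cm' := by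
  have hm1 : 1 ≤ m := Nat.one_le_iff_ne_zero.mpr (NeZero.ne _)
  have h00 : IsKum N m (0 : G0 N → ZMod m) (0 : JZero N) := by
    have h0 : IsParHom (0 : G0 N → ZMod m) :=
      ⟨fun _ _ => by simp, fun _ _ => rfl, fun _ _ _ _ => rfl⟩
    obtain ⟨x0, hx0⟩ := H.ex 0 h0
    have h2 := H.add _ _ _ _ hx0 hx0
    rw [add_zero] at h2
    have h3 := H.uniq _ _ _ hx0 h2
    have : x0 = 0 := left_eq_add.mp h3
    rw [this] at hx0
    exact hx0
  have hnsmul : ∀ k : ℕ, IsKum N m (k • cm') (k • x) := by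
    intro k
    induction k with
    | zero =>
      rw [zero_nsmul, zero_nsmul]
      exact h00
    | succ k ih =>
      rw [succ_nsmul, succ_nsmul]
      exact H.add _ _ _ _ ih hk'
  have hmx : m • x = 0 := by
    have h1 := hnsmul m
    have e : m • cm' = 0 := by
      funext γ
      simp
    rw [e] at h1
    exact H.uniq _ _ _ h1 h00
  have h3 := H.add _ _ _ _ hk (hnsmul (m - 1))
  have e1 : x + (m - 1) • x = 0 := by
    rw [← succ_nsmul', Nat.sub_add_cancel hm1, hmx]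
  rw [e1] at h3
  have h4 := H.inj _ h3
  have e2 : (m - 1) • cm' = -cm' := by
    have : (m - 1) • cm' + cm' = 0 := by
      rw [← succ_nsmul, Nat.sub_add_cancel hm1]
      funext γ
      simp
    exact eq_neg_of_add_eq_zero_left this
  rw [e2] at h4
  exact sub_eq_zero.mp (by rw [sub_eq_add_neg]; exact h4)

/-- Two `p`-primary parabolic characters with the same Kummer class are equal. -/
theorem eq_of_kumQZ_eq {c c' : G0 N → QZ} (hc : IsParHom c) (hc' : IsParHom c')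
    (hn : ∃ n : ℕ, p ^ n • c = 0) (hn' : ∃ n : ℕ, p ^ n • c' = 0)
    (h : kumQZ N p c = kumQZ N p c') : c = c' := by
  have H := kumPackages N p
  obtain ⟨n, hn⟩ := hn
  obtain ⟨n', hn'⟩ := hn'
  have h1 := isKumQZ_kumQZ H hc (nsmul_eq_zero_of_le (le_max_left n n') hn)
  have h2 := isKumQZ_kumQZ H hc' (nsmul_eq_zero_of_le (le_max_right n n') hn')
  rw [← h] at h2
  obtain ⟨cm, hcm, hk⟩ := h1
  obtain ⟨cm', hcm', hk'⟩ := h2
  have h5 : cm = cm' := isKum_char_eq (H _) hk hk'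
  funext γ
  rw [← hcm, ← hcm', h5]

end Fermat.Agent.S59.NMP.H161
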